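/-
S15, block A (endgame), part A-CUSP (architect helper77): definitions.

* `wN N`      : the Atkin-Lehner (Fricke) involution of `FN N`, `j(q^d) ↦ j(q^(N/d))`
* `cusp0 N`   : the cusp `0` of `X₀(N)`, i.e. the image of the cusp `∞ = S17.W.cusp N` under `wN`
* `cuspDiv N` : the divisor `(∞) - (0)`
* `cuspC N`   : its class in `JZero N`
* `uSer N`    : the `q`-expansion over `ℚ̄` of the modular unit `Δ(q) / Δ(q^N)`
-/
import Fermat.Agent.S15.Defs
import Fermat.Agent.S17.W.Cusp
import Fermat.Agent.S27.Defs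
import Fermat.Agent.GAL.E.Cusps.Levels
import Fermat.Prelude.Def_ModularCurve_ModularUnit

set_option autoImplicit false

noncomputable section

namespace Fermat.Agent.S15.A

open ModularCurve AlgebraicCurve Fermat.Agent.S24 Fermat.Agent.S27 Fermat.Agent.GAL.E

variable (N : ℕ) [NeZero N]

/-- The Atkin-Lehner (Fricke) involution of `FN N`. -/
def wN : FN N ≃ₐ[Kbar] FN N :=
  ((levelCast (one_mul N)).symm.trans (wAL 1 N (Nat.coprime_one_right N))).trans
    (levelCast (one_mul N))

/-- The cusp `∞`. -/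
abbrev cuspInf : Place Kbar (FN N) := Fermat.Agent.S17.W.cusp N

/-- The cusp `0`. -/
def cusp0 : Place Kbar (FN N) := SemilinearAut.ofAlgAut (wN N) • cuspInf N

/-- The divisor `(∞) - (0)`. -/
def cuspDiv : Divisor Kbar (FN N) := Finsupp.single (cuspInf N) 1 - Finsupp.single (cusp0 N) 1

/-- The cuspidal class `[(∞) - (0)]`. -/
def cuspC : JZero N := cls (cuspDiv N)

/-- The `q`-expansion of the modular unit `Δ(q) / Δ(q^N)`, over `ℚ̄`. -/
def uSer : LaurentSeries Kbar := coeffEmb Kbar (modularUnitSeries N)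

end Fermat.Agent.S15.A

end
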