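/-
S15, block A, part A-CUSP (helper77), node C1: the Fricke involution `wN N` of `FN N`.
-/
import Fermat.Agent.S15.A.Cusp.Defs

set_option autoImplicit false

noncomputable section

namespace Fermat.Agent.S15.A

open ModularCurve AlgebraicCurve Fermat.Agent.S24 Fermat.Agent.S27 Fermat.Agent.GAL.E

variable (N : ℕ) [NeZero N]

theorem wN_apply (y : FN N) :
    wN N y = levelCast (one_mul N) (wAL 1 N (Nat.coprime_one_right N)
      (levelCast (one_mul N).symm y)) := by
  show levelCast (one_mul N) (wAL 1 N (Nat.coprime_one_right N)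
      ((levelCast (one_mul N)).symm y)) = _
  rw [levelCast_symm]

theorem wN_JF (d d' : ℕ) [NeZero d] [NeZero d'] (h : d * d' = N) (hd : d ∣ N) (hd' : d' ∣ N) :
    wN N (JF N d hd) = JF N d' hd' := by
  rw [wN_apply, levelCast_JF (one_mul N).symm d hd (by rw [one_mul]; exact hd),
    JF_congr (one_mul d).symm _ (by rw [one_mul, one_mul]; exact hd),
    wAL_JF 1 N (Nat.coprime_one_right N) 1 d d' dvd_rfl h _ (by rw [one_mul, one_mul]; exact hd'),
    levelCast_JF (one_mul N) (1 * d') _ (by rw [one_mul]; exact hd')]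
  exact JF_congr (one_mul d') _ _

theorem wN_wN (y : FN N) : wN N (wN N y) = y := by
  rw [wN_apply, wN_apply]
  have h1 : ∀ z : FN (1 * N), levelCast (one_mul N).symm (levelCast (one_mul N) z) = z := by
    intro z
    apply Subtype.ext
    rw [coe_levelCast, coe_levelCast]
  rw [h1, wAL_wAL]
  apply Subtype.ext
  rw [coe_levelCast, coe_levelCast]

theorem wN_jF : wN N (jF N) = JF N N dvd_rfl :=
  wN_JF N 1 N (one_mul N) _ _

theorem wN_jN : wN N (JF N N dvd_rfl) = jF N :=
  wN_JF N N 1 (mul_one N) _ _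

theorem galF_wN (σ : GQ) (y : FN N) : galF N σ (wN N y) = wN N (galF N σ y) := by
  rw [wN_apply, wN_apply, galF_levelCast, galF_wAL, galF_levelCast]

end Fermat.Agent.S15.A

end
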