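/-
S15, block A, part A-CUSP (helper77), node C2: the cusp `0` of `X₀(N)`.
-/
import Fermat.Agent.S15.A.Cusp.WN
import Fermat.Agent.S15.A.Defs

set_option autoImplicit false
set_option linter.unusedSectionVars false

noncomputable section

namespace Fermat.Agent.S15.A

open ModularCurve AlgebraicCurve Fermat.Agent.S24 Fermat.Agent.S27 Fermat.Agent.GAL.E

variable (N : ℕ) [NeZero N]

theorem ord_cusp0 (f : FN N) : (cusp0 N).ord f = (cuspInf N).ord (wN N f) := by
  have h := SemilinearAut.ord_smul (SemilinearAut.ofAlgAut (wN N)) (cuspInf N) (wN N f)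
  rw [SemilinearAut.ofAlgAut_smul, wN_wN] at h
  exact h

theorem JF_ne_zero (d : ℕ) [NeZero d] (hd : d ∣ N) : JF N d hd ≠ 0 := by
  intro h
  have h1 : (Jser d).order = 0 := by
    have : ((JF N d hd : FN N) : LaurentSeries Kbar) = Jser d := rfl
    rw [← this, h]; simp
  rw [B.Jser_eq_qExpand, B.order_qExpand, B.order_Jser_one] at h1
  have := NeZero.ne d
  omega

theorem ord_cuspInf_JF (d : ℕ) [NeZero d] (hd : d ∣ N) :
    (cuspInf N).ord (JF N d hd) = -(d : ℤ) := by
  rw [Fermat.Agent.S17.W.ord_cusp N _ (JF_ne_zero N d hd)]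
  show (Jser d).order = _
  rw [B.Jser_eq_qExpand, B.order_qExpand, B.order_Jser_one]
  ring

theorem ord_cuspInf_jF : (cuspInf N).ord (jF N) = -1 := by
  have := ord_cuspInf_JF N 1 (one_dvd N)
  rw [Nat.cast_one] at this
  exact this

theorem ord_cuspInf_jN : (cuspInf N).ord (jN N) = -(N : ℤ) := ord_cuspInf_JF N N dvd_rfl

theorem ord_cusp0_jF : (cusp0 N).ord (jF N) = -(N : ℤ) := by
  rw [ord_cusp0, wN_jF]
  exact ord_cuspInf_JF N N dvd_rfl

theorem ord_cusp0_jN : (cusp0 N).ord (jN N) = -1 := by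
  rw [ord_cusp0]
  show (cuspInf N).ord (wN N (JF N N dvd_rfl)) = -1
  rw [wN_jN]
  exact ord_cuspInf_jF N

theorem cusp0_ne_cuspInf (hN : 1 < N) : cusp0 N ≠ cuspInf N := by
  intro h
  have h1 := ord_cusp0_jF N
  rw [h, ord_cuspInf_jF] at h1
  omega

theorem fixedPl_cuspInf : FixedPl N (cuspInf N) := fun σ => Fermat.Agent.S17.W.smul_cusp N σ

theorem fixedPl_cusp0 : FixedPl N (cusp0 N) := by
  intro σ
  have hcomm : arithmeticGalois (modularFunctionFieldFull N) σ * SemilinearAut.ofAlgAut (wN N) =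
      SemilinearAut.ofAlgAut (wN N) * arithmeticGalois (modularFunctionFieldFull N) σ := by
    apply Subtype.ext
    apply Prod.ext
    · apply RingEquiv.ext
      intro y
      exact galF_wN N σ y
    · ext a
      rfl
  show arithmeticGalois (modularFunctionFieldFull N) σ •
    (SemilinearAut.ofAlgAut (wN N) • cuspInf N) = SemilinearAut.ofAlgAut (wN N) • cuspInf N
  rw [← mul_smul, hcomm, mul_smul, Fermat.Agent.S17.W.smul_cusp]

end Fermat.Agent.S15.A

end
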