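/-
S15, block A, part A-CUSP (helper77), node K2: for `N` prime the only poles of `j` on `X₀(N)` are
the cusps `∞` and `0`.
-/
import Fermat.Agent.S15.A.Cusp.Cusp0
import Fermat.Agent.S24.Export.Ramification
import Fermat.Agent.Lib.Gamma0CountIndex

set_option autoImplicit false
set_option linter.unusedSectionVars false

noncomputable section

namespace Fermat.Agent.S15.A

open ModularCurve AlgebraicCurve Fermat.Agent.S24 Fermat.Agent.S27 Fermat.Agent.GAL.E

variable (N : ℕ) [NeZero N]

theorem dedekindPsi_of_prime (hN : N.Prime) : dedekindPsi N = N + 1 := by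
  have h := Fermat.Agent.Lib.Gamma0Count.dedekindPsi_mul_of_not_dvd (p := N) (M := 1) one_ne_zero hN
    (by intro h; exact hN.one_lt.ne' (Nat.dvd_one.mp h))
  rw [mul_one] at h
  rw [h]
  have h1 : dedekindPsi 1 = 1 := ModularCurve.dedekindPsi_one
  rw [h1, mul_one]

theorem finrank_jF_of_prime (hN : N.Prime) :
    Module.finrank (IntermediateField.adjoin Kbar {jF N}) (FN N) = N + 1 := by
  rw [Export.finrank_eq_index, Fermat.Agent.Lib.Gamma0Count.index_Gamma0 N (NeZero.ne N),
    dedekindPsi_of_prime N hN]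

theorem eq_cuspInf_or_eq_cusp0 (hN : N.Prime) (v : Place Kbar (FN N)) (hv : v.ord (jF N) < 0) :
    v = cuspInf N ∨ v = cusp0 N := by
  classical
  have : FF.IsFF1 Kbar (FN N) := Export.isFF1 N
  obtain ⟨s, hs, hsum⟩ := FF.exists_finset_ord_neg (K := Kbar) (jF N) (Formal.transcendental_jF N)
  rw [finrank_jF_of_prime N hN] at hsum
  by_contra hcon
  push Not at hcon
  have hne : cusp0 N ≠ cuspInf N := cusp0_ne_cuspInf N hN.one_lt
  have h1 : cuspInf N ∈ s := (hs _).2 (by rw [ord_cuspInf_jF]; omega)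
  have h2 : cusp0 N ∈ s := (hs _).2 (by
    rw [ord_cusp0_jF]
    have := hN.pos
    omega)
  have h3 : v ∈ s := (hs _).2 hv
  have hsub : ({v, cuspInf N, cusp0 N} : Finset (Place Kbar (FN N))) ⊆ s := by
    intro w hw
    simp only [Finset.mem_insert, Finset.mem_singleton] at hw
    rcases hw with rfl | rfl | rfl <;> assumption
  have hle : ∑ w ∈ s, w.ord (jF N) ≤
      ∑ w ∈ ({v, cuspInf N, cusp0 N} : Finset (Place Kbar (FN N))), w.ord (jF N) :=
    by
      rw [← Finset.sum_sdiff hsub]
      have : ∑ w ∈ s \ ({v, cuspInf N, cusp0 N} : Finset (Place Kbar (FN N))), w.ord (jF N) ≤ 0 :=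
        Finset.sum_nonpos fun w hw => ((hs w).1 (Finset.mem_sdiff.1 hw).1).le
      omega
  rw [Finset.sum_insert (by simp [hcon.1, hcon.2]), Finset.sum_insert (by simp [hne.symm]),
    Finset.sum_singleton, ord_cuspInf_jF, ord_cusp0_jF, hsum] at hle
  push_cast at hle
  omega

theorem isCusp0_cusp0 (hN : N.Prime) : IsCusp0 N (cusp0 N) where
  ord_j := ord_cusp0_jF N
  ord_jN := ord_cusp0_jN N
  only := eq_cuspInf_or_eq_cusp0 N hN

end Fermat.Agent.S15.A

end
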