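/-
S15, block A, part A-CUSP (helper77), node K3a: `Lib.EtaFN.exists_unit` for eta quotients with a
leading power of `q` (same proof).
-/
import Fermat.Agent.Lib.EtaFN.Unit

set_option autoImplicit false

namespace Fermat.Agent.S15.A

open UpperHalfPlane ModularCurve AlgebraicCurve Fermat.Agent.S24 Fermat.Agent.S24.B
open Fermat.Agent.S28.EtaQuot CongruenceSubgroup Fermat.Agent.Lib.EtaFN
open scoped MatrixGroups Manifold Real ModularForm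

variable {N : ℕ} [NeZero N]
variable {κ : Type*} [Fintype κ] {D₀ : κ → ℕ} {r₀ : κ → ℤ}

theorem exists_unit_gen {a : ℕ} {k : ℤ} {χ : ℤ → ℂ} (hχ : ∀ d, χ d ≠ 0) (ha : 0 < a)
    (hD₀ : ∀ i, D₀ i ∣ a) (hk : 2 * k = ∑ i, r₀ i) (m₁ : ℤ) (h0 : ∑ i, r₀ i * D₀ i = 24 * m₁)
    (hG : ∀ γ ∈ Gamma0 a, etaQuot Finset.univ D₀ r₀ ∣[k] γ =
      χ (γ 1 1) • etaQuot Finset.univ D₀ r₀)
    {E E' : ℕ} (hE : 0 < E) (hE' : 0 < E') (hEa : Nat.Coprime E a) (hE'a : Nat.Coprime E' a)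
    (hEN : a * E ∣ N) (hEN' : a * E' ∣ N) :
    ∃ x : FN N, (x : LaurentSeries Kbar) = HahnSeries.single (((E : ℤ) - E') * m₁) 1 *
        etaSer Finset.univ (ratioD D₀ E E') (ratioR r₀) ∧
      (∀ γ : SL(2, ℤ), HasTExp N
        (fun τ => etaQuot Finset.univ (ratioD D₀ E E') (ratioR r₀) (γ⁻¹ • τ))
        (texpL N (γ • Psi N x))) ∧
      (∀ γ : SL(2, ℤ), ∃ (c : Kbar) (m : ℤ), IsUnitShape (texpL N (γ • Psi N x)) c m ∧
        ∃ n : ℕ, 0 < n ∧ c ^ n =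
          ((((E' / Int.gcd E' (γ⁻¹ 1 0) : ℕ) : Kbar) / ((E / Int.gcd E (γ⁻¹ 1 0) : ℕ) : Kbar)) ^ k)
            ^ n) ∧
      (E ∣ E' → 0 ≤ k → IsIntegral (Algebra.adjoin ℤ {jF N}) x ∧
        IsIntegral (Algebra.adjoin ℤ {jF N})
          (algebraMap Kbar (FN N) (((E' / E : ℕ) : Kbar) ^ k) * x⁻¹)) := by
  have hD₀pos : ∀ i, 0 < D₀ i := fun i => Nat.pos_of_dvd_of_pos (hD₀ i) ha
  have hD : ∀ i ∈ (Finset.univ : Finset (κ ⊕ κ)), 0 < ratioD D₀ E E' i := by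
    rintro (i | i) -
    · exact Nat.mul_pos hE (hD₀pos i)
    · exact Nat.mul_pos hE' (hD₀pos i)
  have hDN : ∀ i ∈ (Finset.univ : Finset (κ ⊕ κ)), ratioD D₀ E E' i ∣ N := by
    rintro (i | i) -
    · exact (by simpa [ratioD, mul_comm] using Nat.mul_dvd_mul_right (hD₀ i) E : _ ∣ a * E).trans hEN
    · exact (by simpa [ratioD, mul_comm] using Nat.mul_dvd_mul_right (hD₀ i) E' :
        _ ∣ a * E').trans hEN'
  have hr : ∑ i : κ ⊕ κ, ratioR r₀ i = 0 := by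
    simp [ratioR, Fintype.sum_sum_type]
  have hinv : ∀ γ ∈ Gamma0 N, ∀ τ : ℍ,
      etaQuot Finset.univ (ratioD D₀ E E') (ratioR r₀) (γ • τ) =
        etaQuot Finset.univ (ratioD D₀ E E') (ratioR r₀) τ :=
    fun γ hγ τ => ratio_smul hχ hD₀pos hG hE hE' hEN hEN' γ hγ τ
  have hm₀ : 24 * (((E : ℤ) - E') * m₁) = ∑ i : κ ⊕ κ, ratioR r₀ i * ratioD D₀ E E' i := by
    have h1 : ∑ i, r₀ i * ((E * D₀ i : ℕ) : ℤ) = E * ∑ i, r₀ i * D₀ i := by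
      rw [Finset.mul_sum]
      exact Finset.sum_congr rfl fun i _ => by push_cast; ring
    have h2 : ∑ i, -r₀ i * ((E' * D₀ i : ℕ) : ℤ) = -(E' * ∑ i, r₀ i * D₀ i) := by
      rw [Finset.mul_sum, ← Finset.sum_neg_distrib]
      exact Finset.sum_congr rfl fun i _ => by push_cast; ring
    simp only [ratioR, ratioD, Fintype.sum_sum_type, Sum.elim_inl, Sum.elim_inr]
    rw [h1, h2, h0]
    ring
  obtain ⟨x, hx1, hx2, hx3⟩ := exists_FN_etaQuot hD hDN hr hinv _ hm₀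
  have hshape : ∀ γ : SL(2, ℤ), ∃ (c : Kbar) (m : ℤ), IsUnitShape (texpL N (γ • Psi N x)) c m ∧
        ∃ n : ℕ, 0 < n ∧ c ^ n =
          ((((E' / Int.gcd E' (γ⁻¹ 1 0) : ℕ) : Kbar) / ((E / Int.gcd E (γ⁻¹ 1 0) : ℕ) : Kbar)) ^ k)
            ^ n := by
    intro γ
    obtain ⟨c, m, h1, -, n, hn, h2⟩ := hx3 γ
    refine ⟨c, m, h1, 24 * n, by positivity, ?_⟩
    rw [h2, ratio_const hD₀ ha hE hE' hEa hE'a k hk, mul_comm 24 k, zpow_mul, pow_mul]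
    norm_cast
  refine ⟨x, hx1, hx2, hshape, fun hdvd hk0 => ?_⟩
  · obtain ⟨k', rfl⟩ := Int.eq_ofNat_of_zero_le hk0
    have hmod := isModFun_etaQuot hD hDN hr hinv
    constructor
    · refine isIntegral_of_shape hmod x hx2 fun γ => ?_
      obtain ⟨c, m, h1, n, hn, h2⟩ := hshape γ
      refine ⟨c, m, h1, ?_⟩
      obtain ⟨B, hB⟩ := div_gcd_dvd_div_gcd hE hdvd (γ⁻¹ 1 0)
      have hpos := div_gcd_pos hE (γ⁻¹ 1 0)
      refine isIntegral_of_pow_eq_natCast (A := (B ^ k') ^ n) hn ?_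
      rw [h2, hB]
      have hne : ((E / Int.gcd E (γ⁻¹ 1 0) : ℕ) : Kbar) ≠ 0 := by exact_mod_cast hpos.ne'
      push_cast
      rw [mul_div_cancel_left₀ _ (by simpa using hne)]
      norm_cast
    · refine isIntegral_mul_inv_of_shape hmod (fun τ => etaQuot_ne_zero hD τ) x hx2 _
        fun γ => ?_
      obtain ⟨c, m, h1, n, hn, h2⟩ := hshape γ
      have hpos := div_gcd_pos hE (γ⁻¹ 1 0)
      have hpos' := div_gcd_pos hE' (γ⁻¹ 1 0)
      have hne : ((E / Int.gcd E (γ⁻¹ 1 0) : ℕ) : Kbar) ≠ 0 := by exact_mod_cast hpos.ne'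
      have hne' : ((E' / Int.gcd E' (γ⁻¹ 1 0) : ℕ) : Kbar) ≠ 0 := by exact_mod_cast hpos'.ne'
      have hc : c ≠ 0 := by
        intro h
        rw [h, zero_pow hn.ne'] at h2
        exact pow_ne_zero _ (zpow_ne_zero _ (div_ne_zero hne' hne)) h2.symm
      refine ⟨c, m, h1, hc, ?_⟩
      obtain ⟨B, hB⟩ := div_gcd_dvd_mul_div_gcd hE' hdvd (γ⁻¹ 1 0)
      refine isIntegral_of_pow_eq_natCast (A := (B ^ k') ^ n) hn ?_
      have hB' : ((E' / E : ℕ) : Kbar) * ((E / Int.gcd E (γ⁻¹ 1 0) : ℕ) : Kbar) =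
          ((E' / Int.gcd E' (γ⁻¹ 1 0) : ℕ) : Kbar) * (B : Kbar) := by exact_mod_cast hB
      rw [mul_pow, inv_pow, h2]
      simp only [zpow_natCast]
      rw [← inv_pow, ← inv_pow, ← mul_pow, ← mul_pow, inv_div, ← mul_div_assoc, hB',
        mul_div_cancel_left₀ _ hne']
      norm_cast

end Fermat.Agent.S15.A
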