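/-
S15, block A, part A-CUSP (helper77), node K3b: the modular unit `u_N = Δ(q) / Δ(q^N)` as an element
of `FN N`; `u_N` and `N^12 / u_N` are integral over `ℤ[j]`.
-/
import Fermat.Agent.S15.A.Cusp.UnitGen
import Fermat.Agent.S15.A.Cusp.Defs

set_option autoImplicit false

noncomputable section

namespace Fermat.Agent.S15.A

open UpperHalfPlane ModularCurve AlgebraicCurve Fermat.Agent.S24 Fermat.Agent.S24.B
open Fermat.Agent.S28.EtaQuot CongruenceSubgroup Fermat.Agent.Lib.EtaFN
open scoped MatrixGroups Manifold Real ModularForm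

variable (N : ℕ) [NeZero N]

/-- `η^24 = Δ` is modular of weight `12`. -/
theorem etaQuot_delta_slash (γ : SL(2, ℤ)) :
    etaQuot Finset.univ (fun _ : Unit => 1) (fun _ => 24) ∣[(12 : ℤ)] γ =
      etaQuot Finset.univ (fun _ : Unit => 1) (fun _ => 24) := by
  have h : etaQuot Finset.univ (fun _ : Unit => 1) (fun _ => 24) = ModularForm.discriminant := by
    funext τ
    simp only [etaQuot, ModularForm.discriminant, Finset.univ_unique, Finset.prod_singleton,
      Nat.cast_one, one_mul]
    norm_cast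
  rw [h]
  exact SlashInvariantForm.slash_action_generators_SL2Z ModularForm.discriminant_S_invariant
    ModularForm.discriminant_T_invariant γ

/-- identification of the two forms of the `q`-expansion -/
theorem uSer_eq : uSer N = HahnSeries.single ((((1 : ℕ) : ℤ) - (N : ℕ)) * 1) 1 *
    etaSer Finset.univ (ratioD (fun _ : Unit => 1) 1 N) (ratioR (fun _ => 24)) := by
  have he0 : eulerSer ≠ 0 := by
    intro h
    have h1 : eulerSer.coeff ((0 : ℕ) : ℤ) = 1 := by
      rw [eulerSer, HahnSeries.ofPowerSeries_apply_coeff, PowerSeries.coeff_map,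
        PowerSeries.coeff_zero_eq_constantCoeff_apply, constantCoeff_etaProd, map_one]
    rw [h] at h1
    simp at h1
  have hd : coeffEmb Kbar deltaSeries = HahnSeries.single (1 : ℤ) 1 * eulerSer ^ 24 := by
    rw [deltaSeries, map_mul, coeffEmb, coeffMap_single, map_one, coeffMap_ofPowerSeries,
      dedekindEtaUnitQ, dedekindEtaUnit, eulerSer, ← map_pow, ← map_pow]
    congr 2
  have hE : qExpand Kbar N eulerSer ≠ 0 := fun h =>
    he0 (qExpand_injective (R := Kbar) N (h.trans (map_zero _).symm))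
  have hs : (HahnSeries.single (N : ℤ) (1 : Kbar)) ≠ 0 := HahnSeries.single_ne_zero one_ne_zero
  have h1 : HahnSeries.single (1 - (N : ℤ)) (1 : Kbar) * HahnSeries.single (N : ℤ) (1 : Kbar) =
      HahnSeries.single (1 : ℤ) 1 := by
    rw [HahnSeries.single_mul_single, mul_one, sub_add_cancel]
  have h2 : coeffEmb Kbar (deltaSeriesN N) =
      HahnSeries.single (N : ℤ) 1 * qExpand Kbar N eulerSer ^ 24 := by
    rw [deltaSeriesN, coeffEmb, ModularCurve.coeffMap_qExpand, ← coeffEmb, hd, map_mul,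
      qExpand_single, mul_one, map_pow]
  have h3 : etaSer Finset.univ (ratioD (fun _ : Unit => 1) 1 N) (ratioR (fun _ => 24)) =
      eulerSer ^ 24 * (qExpand Kbar N eulerSer ^ 24)⁻¹ := by
    rw [etaSer, Fintype.prod_sum_type]
    simp only [Finset.univ_unique, Finset.prod_singleton, ratioD, ratioR, Sum.elim_inl,
      Sum.elim_inr, mul_one]
    rw [eulerSerD_eq 1, eulerSerD_eq N, qExpand_one_apply, zpow_neg]
    norm_cast
  rw [uSer, modularUnitSeries, map_mul, map_inv₀, hd, h2, h3, Nat.cast_one, mul_one, ← h1]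
  field_simp

theorem exists_uN : ∃ x : FN N, (x : LaurentSeries Kbar) = uSer N ∧
    IsIntegral (Algebra.adjoin ℤ {jF N}) x ∧
    IsIntegral (Algebra.adjoin ℤ {jF N}) (algebraMap Kbar (FN N) ((N : Kbar) ^ 12) * x⁻¹) := by
  obtain ⟨x, h1, -, -, h4⟩ := exists_unit_gen (N := N) (a := 1) (k := 12) (χ := fun _ => 1)
    (D₀ := fun _ : Unit => 1) (r₀ := fun _ => 24) (fun _ => one_ne_zero) one_pos
    (fun _ => dvd_rfl) (by simp) 1 (by simp)
    (fun γ _ => by rw [one_smul]; exact etaQuot_delta_slash γ)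
    (E := 1) (E' := N) one_pos (Nat.pos_of_ne_zero (NeZero.ne N)) (Nat.coprime_one_right 1)
    (Nat.coprime_one_right N) (by simp) (by simp)
  obtain ⟨h5, h6⟩ := h4 (one_dvd N) (by norm_num)
  refine ⟨x, by rw [h1, uSer_eq], h5, ?_⟩
  rw [Nat.div_one] at h6
  exact_mod_cast h6

theorem uSer_mem : uSer N ∈ modularFunctionFieldBar N := by
  obtain ⟨x, hx, -⟩ := exists_uN N
  rw [← hx]
  exact x.2

/-- the modular unit `u_N = Δ(q) / Δ(q^N)` -/
def uN : FN N := ⟨uSer N, uSer_mem N⟩

theorem coe_uN : ((uN N : FN N) : LaurentSeries Kbar) = uSer N := rfl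

theorem isIntegral_uN : IsIntegral (Algebra.adjoin ℤ {jF N}) (uN N) := by
  obtain ⟨x, hx, h, -⟩ := exists_uN N
  have : x = uN N := Subtype.ext hx
  rwa [this] at h

theorem isIntegral_inv_uN :
    IsIntegral (Algebra.adjoin ℤ {jF N}) (algebraMap Kbar (FN N) ((N : Kbar) ^ 12) * (uN N)⁻¹) := by
  obtain ⟨x, hx, -, h⟩ := exists_uN N
  have : x = uN N := Subtype.ext hx
  rwa [this] at h

end Fermat.Agent.S15.A

end
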