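/-
S15, block A, part A-CUSP, node K3 (helper63): the divisor of `uN N : FN N` (helper77's `UN.lean`),
`(N - 1) ((0) - (∞))`, and `(N - 1) • cc = 0`.
-/
import Fermat.Agent.S15.A.Cusp.UN
import Fermat.Agent.S15.A.Cusp.Cusp0
import Fermat.Agent.Lib.EtaFN.OrdNonneg

set_option autoImplicit false
set_option linter.unusedSectionVars false

noncomputable section

namespace Fermat.Agent.S15.A

open UpperHalfPlane ModularCurve AlgebraicCurve Fermat.Agent.S24 Fermat.Agent.S24.B
open Fermat.Agent.S27 Fermat.Agent.S28.EtaQuot CongruenceSubgroup Fermat.Agent.Lib.EtaFN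
open scoped MatrixGroups Manifold Real ModularForm

variable (N : ℕ) [NeZero N]

theorem uSer_ne_zero : uSer N ≠ 0 :=
  (map_ne_zero (coeffEmb Kbar)).mpr (modularUnitSeries_ne_zero N)

theorem uN_ne_zero : uN N ≠ 0 := by
  intro h
  have h1 := coe_uN N
  rw [h] at h1
  exact uSer_ne_zero N h1.symm

theorem order_uSer : (uSer N).order = 1 - (N : ℤ) := by
  have hc : (uSer N).coeff (1 - (N : ℤ)) = 1 := by
    rw [uSer, coeffEmb_coeff, coeff_modularUnitSeries_self, map_one]
  refine le_antisymm (HahnSeries.order_le_of_coeff_ne_zero (by rw [hc]; exact one_ne_zero)) ?_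
  by_contra hlt
  rw [not_le] at hlt
  have h0 : (uSer N).coeff (uSer N).order = 0 := by
    have : ∀ k : ℤ, k < 1 - (N : ℤ) → (uSer N).coeff k = 0 := fun k hk => by
      rw [uSer, coeffEmb_coeff, coeff_modularUnitSeries_of_lt N hk, map_zero]
    exact this _ hlt
  exact uSer_ne_zero N (HahnSeries.coeff_order_eq_zero.mp h0)

/-! ### The divisor -/

theorem ord_cuspInf_uN : (cInf N).ord (uN N) = 1 - (N : ℤ) := by
  rw [Fermat.Agent.S17.W.ord_cusp N _ (uN_ne_zero N), coe_uN, order_uSer]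

theorem ord_uN_of_nonneg (v : Place Kbar (FN N)) (hv : 0 ≤ v.ord (jF N)) : v.ord (uN N) = 0 := by
  have h1 := ord_nonneg_of_isIntegral (uN N) (isIntegral_uN N) v hv
  have h2 := ord_nonneg_of_isIntegral _ (isIntegral_inv_uN N) v hv
  have hN : algebraMap Kbar (FN N) ((N : Kbar) ^ 12) ≠ 0 :=
    (map_ne_zero _).mpr (pow_ne_zero _ (Nat.cast_ne_zero.mpr (NeZero.ne N)))
  have hc : v.ord (algebraMap Kbar (FN N) ((N : Kbar) ^ 12)) = 0 :=
    Fermat.Agent.S24.FF.ord_algebraMap v _
  rw [Place.ord_mul _ hN (inv_ne_zero (uN_ne_zero N)), hc, zero_add,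
    Place.ord_inv] at h2
  omega

variable {N}

theorem IsCusp0.ne_cInf {z : Place Kbar (FN N)} (hz : IsCusp0 N z) (hN : 1 < N) : z ≠ cInf N := by
  intro h
  have h1 := hz.ord_j
  rw [h] at h1
  have h2 : (cInf N).ord (jF N) = -1 := ord_cuspInf_jF N
  rw [h2] at h1
  omega

/-- `ord_0 (u_N) = N - 1`, from the degree of a principal divisor. -/
theorem IsCusp0.ord_uN {z : Place Kbar (FN N)} (hz : IsCusp0 N z) (hN : 1 < N) :
    z.ord (uN N) = (N : ℤ) - 1 := by
  obtain ⟨D, hD⟩ := exists_isDivOf (K := Kbar) (uN N) (uN_ne_zero N)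
  have hne := hz.ne_cInf hN
  have hDeq : D = Finsupp.single (cInf N) (1 - (N : ℤ)) + Finsupp.single z (z.ord (uN N)) := by
    ext v
    rw [hD.2 v, Finsupp.add_apply]
    by_cases h1 : v = cInf N
    · subst h1
      rw [Finsupp.single_eq_same, Finsupp.single_eq_of_ne (Ne.symm hne), add_zero, ord_cuspInf_uN]
    · by_cases h2 : v = z
      · subst h2
        rw [Finsupp.single_eq_same, Finsupp.single_eq_of_ne h1, zero_add]
      · rw [Finsupp.single_eq_of_ne h1, Finsupp.single_eq_of_ne h2, add_zero]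
        refine ord_uN_of_nonneg N v ?_
        by_contra hlt
        rcases hz.only v (not_le.mp hlt) with h | h
        · exact h1 h
        · exact h2 h
  have hdeg := hD.degree
  rw [hDeq, map_add, Divisor.degree_single, Divisor.degree_single,
    Fermat.Agent.S24.FF.deg_eq_one, Fermat.Agent.S24.FF.deg_eq_one] at hdeg
  push_cast at hdeg
  linarith

/-- **K3, the divisor of `u_N`.** -/
theorem IsCusp0.ord_uN_eq {z : Place Kbar (FN N)} (hz : IsCusp0 N z) (hN : 1 < N)
    (v : Place Kbar (FN N)) : v.ord (uN N) = ((N : ℤ) - 1) * (pt z - pt (cInf N)) v := by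
  have hne := hz.ne_cInf hN
  rw [Finsupp.sub_apply, pt, pt]
  by_cases h1 : v = cInf N
  · subst h1
    rw [Finsupp.single_eq_same, Finsupp.single_eq_of_ne (Ne.symm hne), ord_cuspInf_uN]
    ring
  · by_cases h2 : v = z
    · subst h2
      rw [Finsupp.single_eq_same, Finsupp.single_eq_of_ne h1, hz.ord_uN hN]
      ring
    · rw [Finsupp.single_eq_of_ne h1, Finsupp.single_eq_of_ne h2, sub_zero, mul_zero]
      refine ord_uN_of_nonneg N v ?_
      by_contra hlt
      rcases hz.only v (not_le.mp hlt) with h | h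
      · exact h1 h
      · exact h2 h

theorem IsCusp0.isDivOf_uN {z : Place Kbar (FN N)} (hz : IsCusp0 N z) (hN : 1 < N) :
    IsDivOf ((N - 1) • (pt z - pt (cInf N))) (uN N) := by
  refine ⟨uN_ne_zero N, fun v => ?_⟩
  rw [hz.ord_uN_eq hN v, Finsupp.smul_apply, nsmul_eq_mul, Nat.cast_sub hN.le, Nat.cast_one]

theorem cls_nsmul_aux {D : Divisor Kbar (FN N)} (hD : Divisor.degree D = 0) (n : ℕ) :
    cls (n • D) = n • cls D := by
  induction n with
  | zero => rw [zero_nsmul, zero_nsmul, cls_zero]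
  | succ n ih =>
    rw [succ_nsmul, succ_nsmul, cls_add (by rw [map_nsmul, hD, smul_zero]) hD, ih]

/-- **K3.**  The cuspidal class is killed by `N - 1`. -/
theorem IsCusp0.smul_cc_eq_zero {z : Place Kbar (FN N)} (hz : IsCusp0 N z) (hN : 1 < N) :
    (N - 1) • cc N z = 0 := by
  have hdeg : Divisor.degree (pt z - pt (cInf N)) = 0 := degree_pt_sub_pt _ _
  rw [cc, ← cls_nsmul_aux hdeg, cls_eq_zero_iff (by rw [map_nsmul, hdeg, smul_zero])]
  exact ⟨uN N, hz.isDivOf_uN hN⟩

end Fermat.Agent.S15.A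

end
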