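/-
S15, block A: the contract `CuspStmt N (cusp0 N)` (assembly of K1, K2 (helper77), K3 (helper63, helper77),
K4 (helper17 + provers), K5 (helper208)).
-/
import Fermat.Agent.S15.A.Cusp.Only
import Fermat.Agent.S15.A.Cusp.UNDiv
import Fermat.Agent.S15.A.Lam.K5

set_option autoImplicit false

noncomputable section

namespace Fermat.Agent.S15.A

open ModularCurve AlgebraicCurve Fermat.Agent.S24 Fermat.Agent.S27

variable {N : ℕ} [NeZero N]

theorem cc_cusp0_ne_zero (hN : N.Prime) (h : N ∉ ({2, 3, 5, 7, 13} : Finset ℕ)) :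
    cc N (cusp0 N) ≠ 0 :=
  cc_ne_zero_of_uN hN (not_sub_one_dvd_24 hN h) _ (uN N)
    ((coe_uN N).trans (coeffEmb_modularUnitSeries N))
    ((isCusp0_cusp0 N hN).ord_uN_eq hN.one_lt)

/-- **The contract `CuspStmt`.** -/
theorem cuspStmt (hN : N.Prime) (h : N ∉ ({2, 3, 5, 7, 13} : Finset ℕ)) :
    CuspStmt N (cusp0 N) :=
  ⟨isCusp0_cusp0 N hN, fixedPl_cusp0 N, (isCusp0_cusp0 N hN).smul_cc_eq_zero hN.one_lt,
    cc_cusp0_ne_zero hN h⟩

end Fermat.Agent.S15.A

end
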